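import Fermat.Agent.S27.Grp.Spec
import Fermat.Agent.S25.H130.PB

/-!
# Row S27, block GRP, leaf RECIPE (helper541, subtask 694)

Zariski gluing of models of a good recipe:

* `recipeUnique : Grp.Dict Ch → Grp.Stmt.RecipeUnique Ch`
* `recipeExists : Grp.Dict Ch → Grp.Stmt.RecipeExists Ch`
* `recipeCorr   : Grp.Dict Ch → Grp.Stmt.RecipeCorr Ch`
* `recipeDeg    : Grp.Dict Ch → Grp.Stmt.RecipeDeg Ch`

Model of the proof: `S25/H567/AbelGlue.lean` (helper567).  The working notion is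
`IsModelAlong 𝒢 f N'` ("`N'` over `T'` is a model of the restriction of the recipe `𝒢` along the
plain morphism `f : T' ⟶ T`"), which is stable under pullback and Zariski-local.
-/

set_option autoImplicit false
universe u
open CategoryTheory CategoryTheory.Limits AlgebraicGeometry AlgebraicGeometry.RelPicard
  NeronModelInfra GoodReductionJacobian
open scoped TensorProduct

namespace Fermat.Agent.S27.H541

open Fermat.Agent.S25 Fermat.Agent.S25.H130 Fermat.Agent.S27 Fermat.Agent.S27.Grp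

noncomputable section

/-! ## Gluing data: isomorphism is an equivalence relation -/

section GDC

variable {A R₀ R₁ R₀₁ : Type u} [CommRing A] [CommRing R₀] [CommRing R₁]
    [CommRing R₀₁] [Algebra A R₀] [Algebra A R₁] [Algebra A R₀₁] [Algebra R₀ R₀₁]
    [Algebra R₁ R₀₁] [IsScalarTower A R₀ R₀₁] [IsScalarTower A R₁ R₀₁]

theorem gdIso_symm {G G' : GlueDatum A R₀ R₁ R₀₁} (h : G.IsIso G') : G'.IsIso G := by
  obtain ⟨e⟩ := h
  refine ⟨⟨e.e₀.symm, e.e₁.symm, e.e₀₁.symm, fun s => ?_, fun s => ?_⟩⟩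
  · apply e.e₀₁.injective
    rw [LinearEquiv.apply_symm_apply, e.comm₀, LinearEquiv.apply_symm_apply]
  · apply e.e₀₁.injective
    rw [LinearEquiv.apply_symm_apply, e.comm₁, LinearEquiv.apply_symm_apply]

theorem gdIso_trans {G G' G'' : GlueDatum A R₀ R₁ R₀₁} (h : G.IsIso G')
    (h' : G'.IsIso G'') : G.IsIso G'' := by
  obtain ⟨e⟩ := h
  obtain ⟨e'⟩ := h'
  refine ⟨⟨e.e₀.trans e'.e₀, e.e₁.trans e'.e₁, e.e₀₁.trans e'.e₀₁, fun s => ?_, fun s => ?_⟩⟩
  · simp only [LinearEquiv.trans_apply, e.comm₀, e'.comm₀]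
  · simp only [LinearEquiv.trans_apply, e.comm₁, e'.comm₁]

end GDC

variable {k : Type u} [Field k] {C : Scheme.{u}} {c : C ⟶ Spec (CommRingCat.of k)}
  {ε : SchemeHomOver (𝟙 (Spec (CommRingCat.of k))) c} {Ch : ChartOf c ε}

/-! ## Affine neighbourhoods -/

/-- `fromSpec` of an affine open is a morphism over `k`. -/
theorem fromSpec_str {T : Scheme.{u}} (t : T ⟶ Spec (CommRingCat.of k)) {V : T.Opens}
    (hV : IsAffineOpen V) :
    hV.fromSpec ≫ t = Spec.map (CommRingCat.ofHom (sectionsStr t V)) := by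
  rw [← IsAffineOpen.SpecMap_appLE_fromSpec t (isAffineOpen_top _) hV le_top,
    IsAffineOpen.fromSpec_top, Scheme.isoSpec_Spec_inv, ← Spec.map_comp]
  rfl

/-- Every point of an open set `W` of a `k`-scheme `T` has an affine open neighbourhood
`j : Spec A ⟶ T` over `k` contained in `W`. -/
theorem exists_affineNhd {T : Scheme.{u}} (t : T ⟶ Spec (CommRingCat.of k)) (W : T.Opens)
    (ξ : T) (hξ : ξ ∈ W) :
    ∃ (A : Type u) (_ : CommRing A) (_ : Algebra k A) (j : Spec (CommRingCat.of A) ⟶ T)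
      (_ : IsOpenImmersion j) (_ : j ≫ t = specStr k A),
      ξ ∈ Set.range j ∧ Set.range j ⊆ (W : Set T) := by
  obtain ⟨_, ⟨V, hV, rfl⟩, hξV, hVW⟩ :=
    T.isBasis_affineOpens.exists_subset_of_mem_open hξ W.2
  have hVaff : IsAffineOpen V := hV
  let _ : Algebra k Γ(T, V) := (sectionsStr t V).toAlgebra
  have hj : hVaff.fromSpec ≫ t = specStr k Γ(T, V) := fromSpec_str t hVaff
  refine ⟨Γ(T, V), inferInstance, inferInstance, hVaff.fromSpec, inferInstance, hj, ?_, ?_⟩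
  · rw [hVaff.range_fromSpec]
    exact hξV
  · rw [hVaff.range_fromSpec]
    exact hVW

/-- Restrictions to the range of an open immersion are isomorphic as soon as the pullbacks
along the open immersion are. -/
theorem rIso_restrict_range {T S : Scheme.{u}} {t : T ⟶ Spec (CommRingCat.of k)}
    {s : S ⟶ Spec (CommRingCat.of k)} (N N' : RigidifiedLineBundle c ε t)
    (j : SchemeHomOver s t) [IsOpenImmersion j.1]
    (h : RIso (N.pullbackAlong j) (N'.pullbackAlong j)) :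
    RIso (restrictOpen N j.1.opensRange) (restrictOpen N' j.1.opensRange) := by
  have hr : Set.range (j.1.opensRange.ι) ⊆ Set.range j.1 := by
    rw [Scheme.Opens.range_ι]; exact subset_rfl
  have hfac : IsOpenImmersion.lift j.1 (j.1.opensRange.ι) hr ≫ j.1 = j.1.opensRange.ι :=
    IsOpenImmersion.lift_fac _ _ _
  have h1 : IsPB (N.pullbackAlong j) (IsOpenImmersion.lift j.1 (j.1.opensRange.ι) hr)
      (restrictOpen N j.1.opensRange) :=
    (isPB_pullbackAlong N j).of_comp ((isPB_restrictOpen N _).of_eq hfac.symm)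
  have h2 : IsPB (N'.pullbackAlong j) (IsOpenImmersion.lift j.1 (j.1.opensRange.ι) hr)
      (restrictOpen N' j.1.opensRange) :=
    (isPB_pullbackAlong N' j).of_comp ((isPB_restrictOpen N' _).of_eq hfac.symm)
  exact (h1.of_rIso_left h).rIso h2


/-! ## Transfer of `Corr` along isomorphisms of gluing data -/

theorem isSectionsIso_trans {A : Type u} [CommRing A] [Algebra k A]
    {L : (pullback c (specStr k A)).Modules} {U : C.Opens} {B : Type u}
    [CommRing B] [Algebra k B] {i : Γ(C, U) ≃+* B} {N N' : Type u} [AddCommGroup N]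
    [Module (A ⊗[k] B) N] [AddCommGroup N'] [Module (A ⊗[k] B) N']
    {e : Γ(L, preimageOpen (c := c) A U) ≃+ N} (he : IsSectionsIso A L U i e)
    (f : N ≃ₗ[A ⊗[k] B] N') : IsSectionsIso A L U i (e.trans f.toAddEquiv) := by
  refine ⟨fun a s => ?_, fun g s => ?_⟩
  · change f (e _) = _ • f (e s)
    rw [he.1, map_smul]
  · change f (e _) = _ • f (e s)
    rw [he.2, map_smul]

/-- `Corr` is invariant under isomorphism of gluing data. -/
theorem corr_of_gdIso {A : Type u} [CommRing A] [Algebra k A]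
    {L : (pullback c (specStr k A)).Modules} {G G' : CurveGD k Ch.B₀ Ch.B₁ Ch.B₀₁ A}
    (h : Corr Ch A L G) (e : G.IsIso G') : Corr Ch A L G' := by
  obtain ⟨e₀, e₁, e₀₁, h₀, h₁, h₀₁, hr₀, hr₁⟩ := h
  obtain ⟨f⟩ := e
  refine ⟨e₀.trans f.e₀.toAddEquiv, e₁.trans f.e₁.toAddEquiv, e₀₁.trans f.e₀₁.toAddEquiv,
    isSectionsIso_trans h₀ f.e₀, isSectionsIso_trans h₁ f.e₁, isSectionsIso_trans h₀₁ f.e₀₁,
    fun s => ?_, fun s => ?_⟩
  · change f.e₀₁ (e₀₁ _) = G'.r₀ (f.e₀ (e₀ s))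
    rw [hr₀, f.comm₀]
  · change f.e₀₁ (e₀₁ _) = G'.r₁ (f.e₁ (e₁ s))
    rw [hr₁, f.comm₁]



/-! ## Models along a morphism -/

/-- `N'` (over `t'`) is a model of the restriction of the recipe `𝒢` along the plain morphism
`f : T' ⟶ T`. -/
def IsModelAlong {T T' : Scheme.{u}} {t : T ⟶ Spec (CommRingCat.of k)}
    {t' : T' ⟶ Spec (CommRingCat.of k)} (𝒢 : Recipe Ch t) (f : T' ⟶ T)
    (N' : RigidifiedLineBundle c ε t') : Prop :=
  ∀ (A : Type u) [CommRing A] [Algebra k A] (s : SchemeHomOver (specStr k A) t')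
    (h : (s.1 ≫ f) ≫ t = specStr k A)
    (G : CurveGD k Ch.B₀ Ch.B₁ Ch.B₀₁ A) (L : RigidifiedLineBundle c ε (specStr k A)),
    𝒢 A ⟨s.1 ≫ f, h⟩ G → Corr Ch A L.L G → RIso (N'.pullbackAlong s) L

section Along

variable {T T' T'' : Scheme.{u}} {t : T ⟶ Spec (CommRingCat.of k)}
  {t' : T' ⟶ Spec (CommRingCat.of k)} {t'' : T'' ⟶ Spec (CommRingCat.of k)}
  {𝒢 : Recipe Ch t}

theorem isModel_iff_along {N : RigidifiedLineBundle c ε t} :
    IsModel Ch 𝒢 N ↔ IsModelAlong 𝒢 (𝟙 T) N := by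
  constructor
  · intro hN A _ _ s h G L hG hL
    have e : (⟨s.1 ≫ 𝟙 T, h⟩ : SchemeHomOver (specStr k A) t) = s :=
      Subtype.ext (Category.comp_id _)
    rw [e] at hG
    exact hN A s G L hG hL
  · intro hN A _ _ s G L hG hL
    have h : (s.1 ≫ 𝟙 T) ≫ t = specStr k A := by rw [Category.comp_id]; exact s.2
    have e : (⟨s.1 ≫ 𝟙 T, h⟩ : SchemeHomOver (specStr k A) t) = s :=
      Subtype.ext (Category.comp_id _)
    refine hN A s h G L ?_ hL
    rw [e]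
    exact hG

theorem IsModelAlong.of_eq {f f' : T' ⟶ T} {N : RigidifiedLineBundle c ε t'}
    (hN : IsModelAlong 𝒢 f N) (e : f = f') : IsModelAlong 𝒢 f' N := by
  subst e
  exact hN

theorem IsModelAlong.of_rIso {f : T' ⟶ T} {N N' : RigidifiedLineBundle c ε t'}
    (hN : IsModelAlong 𝒢 f N) (e : RIso N N') : IsModelAlong 𝒢 f N' :=
  fun A _ _ s h G L hG hL =>
    rIso_trans (rIso_pullbackAlong (rIso_symm e) s) (hN A s h G L hG hL)

/-- Models are stable under pullback. -/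
theorem IsModelAlong.of_isPB {f : T' ⟶ T} {N : RigidifiedLineBundle c ε t'}
    (hN : IsModelAlong 𝒢 f N) {f' : T'' ⟶ T'} {N' : RigidifiedLineBundle c ε t''}
    (h' : IsPB N f' N') : IsModelAlong 𝒢 (f' ≫ f) N' := by
  intro A _ _ s h G L hG hL
  have hw : (s.1 ≫ f') ≫ t' = specStr k A := by rw [Category.assoc, h'.w, s.2]
  have h2 : ((s.1 ≫ f') ≫ f) ≫ t = specStr k A := by
    rw [Category.assoc s.1 f' f]; exact h
  have e : (⟨(s.1 ≫ f') ≫ f, h2⟩ : SchemeHomOver (specStr k A) t) = ⟨s.1 ≫ f' ≫ f, h⟩ :=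
    Subtype.ext (Category.assoc _ _ _)
  have h1 : RIso (N.pullbackAlong (⟨s.1 ≫ f', hw⟩ : SchemeHomOver (specStr k A) t')) L := by
    refine hN A ⟨s.1 ≫ f', hw⟩ h2 G L ?_ hL
    rw [e]
    exact hG
  have h3 : IsPB N (s.1 ≫ f') (N'.pullbackAlong s) := h'.comp (isPB_pullbackAlong N' s)
  exact rIso_trans (rIso_symm h3.2) h1

/-- The local model: a bundle over `Spec A` whose gluing datum is prescribed by the recipe. -/
theorem isModelAlong_of_corr (hD : Dict Ch) (h𝒢 : 𝒢.IsGood)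
    {A : Type u} [CommRing A] [Algebra k A] (j : Spec (CommRingCat.of A) ⟶ T)
    (hj : j ≫ t = specStr k A) (G : CurveGD k Ch.B₀ Ch.B₁ Ch.B₀₁ A) (hG : 𝒢 A ⟨j, hj⟩ G)
    (M : RigidifiedLineBundle c ε (specStr k A)) (hM : Corr Ch A M.L G) :
    IsModelAlong 𝒢 j M := by
  intro R _ _ r h G' L hG' hL
  obtain ⟨a, rfl⟩ := exists_specHomOver_eq r
  obtain ⟨GR, hGR⟩ := hD.bcExists A R a G
  have hc : Corr Ch R (M.pullbackAlong (specHomOver k a)).L GR := hD.bc A R a M G GR hM hGR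
  have h1 : 𝒢 R (postComp ⟨j, hj⟩ (specHomOver k a)) GR := h𝒢.bc A R a ⟨j, hj⟩ G GR hG hGR
  have h2 : GR.IsIso G' := h𝒢.unique R _ GR G' h1 hG'
  exact (hD.iso R _ L GR G' hc hL).2 h2

/-- Uniqueness of models. -/
theorem IsModelAlong.rIso (hD : Dict Ch) (h𝒢 : 𝒢.IsGood) {f : T' ⟶ T} (hf : f ≫ t = t')
    {N N' : RigidifiedLineBundle c ε t'} (hN : IsModelAlong 𝒢 f N)
    (hN' : IsModelAlong 𝒢 f N') : RIso N N' := by
  let ι : Type u := {V : T'.Opens // RIso (restrictOpen N V) (restrictOpen N' V)}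
  refine hD.sheafSep t' (ι := ι) (fun V => V.1) ?_ N N' (fun V => V.2)
  rw [eq_top_iff]
  intro ξ _
  obtain ⟨A, _, _, j, _, hj, hξ, -⟩ := exists_affineNhd t' ⊤ ξ trivial
  have h : (j ≫ f) ≫ t = specStr k A := by rw [Category.assoc, hf, hj]
  obtain ⟨G, hG, hrig⟩ := h𝒢.exists_rig A ⟨j ≫ f, h⟩
  obtain ⟨L, hL⟩ := hD.glue A G hrig
  have h1 := hN A ⟨j, hj⟩ h G L hG hL
  have h2 := hN' A ⟨j, hj⟩ h G L hG hL
  have h3 := rIso_restrict_range N N' (⟨j, hj⟩ : SchemeHomOver (specStr k A) t')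
    (rIso_trans h1 (rIso_symm h2))
  exact TopologicalSpace.Opens.mem_iSup.2 ⟨⟨j.opensRange, h3⟩, hξ⟩

/-- Local existence of models. -/
theorem exists_isModelAlong_local (hD : Dict Ch) (h𝒢 : 𝒢.IsGood) (f : T' ⟶ T)
    (hf : f ≫ t = t') (ξ : T') :
    ∃ V : T'.Opens, ξ ∈ V ∧ ∃ N : RigidifiedLineBundle c ε (V.ι ≫ t'),
      IsModelAlong 𝒢 (V.ι ≫ f) N := by
  obtain ⟨A, _, _, j, _, hj, hξ, -⟩ := exists_affineNhd t' ⊤ ξ trivial
  have h : (j ≫ f) ≫ t = specStr k A := by rw [Category.assoc, hf, hj]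
  obtain ⟨G, hG, hrig⟩ := h𝒢.exists_rig A ⟨j ≫ f, h⟩
  obtain ⟨M, hM⟩ := hD.glue A G hrig
  have hr : Set.range (j.opensRange.ι) ⊆ Set.range j := by
    rw [Scheme.Opens.range_ι]; exact subset_rfl
  have hfac : IsOpenImmersion.lift j (j.opensRange.ι) hr ≫ j = j.opensRange.ι :=
    IsOpenImmersion.lift_fac _ _ _
  have hw : IsOpenImmersion.lift j (j.opensRange.ι) hr ≫ specStr k A =
      j.opensRange.ι ≫ t' := by
    rw [← hj, ← Category.assoc, hfac]
  refine ⟨j.opensRange, hξ, M.pullbackAlong ⟨_, hw⟩, ?_⟩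
  have h1 : IsModelAlong 𝒢 (j ≫ f) M := isModelAlong_of_corr hD h𝒢 (j ≫ f) h G hG M hM
  have h2 := h1.of_isPB (isPB_pullbackAlong M ⟨_, hw⟩)
  refine h2.of_eq ?_
  change IsOpenImmersion.lift j (j.opensRange.ι) hr ≫ j ≫ f = _
  rw [← Category.assoc, hfac]

/-- Existence of models, by gluing. -/
theorem exists_isModelAlong (hD : Dict Ch) (h𝒢 : 𝒢.IsGood) (f : T' ⟶ T)
    (hf : f ≫ t = t') : ∃ N : RigidifiedLineBundle c ε t', IsModelAlong 𝒢 f N := by
  let ι : Type u := {V : T'.Opens // ∃ N : RigidifiedLineBundle c ε (V.ι ≫ t'),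
    IsModelAlong 𝒢 (V.ι ≫ f) N}
  let U : ι → T'.Opens := fun V => V.1
  let M : ∀ V : ι, RigidifiedLineBundle c ε ((U V).ι ≫ t') := fun V => V.2.choose
  have hM : ∀ V : ι, IsModelAlong 𝒢 ((U V).ι ≫ f) (M V) := fun V => V.2.choose_spec
  have hcover : ∀ ξ : T', ∃ V : ι, ξ ∈ U V := by
    intro ξ
    obtain ⟨V, hξ, hV⟩ := exists_isModelAlong_local hD h𝒢 f hf ξ
    exact ⟨⟨V, hV⟩, hξ⟩
  have hU : (⨆ V, U V) = ⊤ := by
    rw [eq_top_iff]
    intro ξ _
    obtain ⟨V, hV⟩ := hcover ξ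
    exact TopologicalSpace.Opens.mem_iSup.2 ⟨V, hV⟩
  obtain ⟨M₀, hM₀⟩ := hD.sheafGlue t' U hU M (fun V V' => by
    have h1 : IsModelAlong 𝒢 ((U V ⊓ U V').ι ≫ f)
        (restrictLE (M V) (inf_le_left : U V ⊓ U V' ≤ U V)) :=
      ((hM V).of_isPB (isPB_pullbackAlong _ _)).of_eq (by
        show T'.homOfLE (inf_le_left : U V ⊓ U V' ≤ U V) ≫ (U V).ι ≫ f = _
        rw [← Category.assoc, Scheme.homOfLE_ι])
    have h2 : IsModelAlong 𝒢 ((U V ⊓ U V').ι ≫ f)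
        (restrictLE (M V') (inf_le_right : U V ⊓ U V' ≤ U V')) :=
      ((hM V').of_isPB (isPB_pullbackAlong _ _)).of_eq (by
        show T'.homOfLE (inf_le_right : U V ⊓ U V' ≤ U V') ≫ (U V').ι ≫ f = _
        rw [← Category.assoc, Scheme.homOfLE_ι])
    exact h1.rIso hD h𝒢 (by rw [Category.assoc, hf]) h2)
  refine ⟨M₀, ?_⟩
  intro R _ _ s h G L hG hL
  -- `L` is a model along `s ≫ f`
  have hLmod : IsModelAlong 𝒢 (s.1 ≫ f) L := isModelAlong_of_corr hD h𝒢 (s.1 ≫ f) h G hG L hL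
  let ι' : Type u := {W : (Spec (CommRingCat.of R)).Opens //
    RIso (restrictOpen (M₀.pullbackAlong s) W) (restrictOpen L W)}
  refine hD.sheafSep (specStr k R) (ι := ι') (fun W => W.1) ?_ _ _ (fun W => W.2)
  rw [eq_top_iff]
  intro z _
  obtain ⟨V, hV⟩ := hcover (s.1 z)
  obtain ⟨R', _, _, j', _, hj', hz, hsub⟩ :=
    exists_affineNhd (specStr k R) (s.1 ⁻¹ᵁ (U V)) z hV
  have hr : Set.range (j' ≫ s.1) ⊆ Set.range (U V).ι := by
    rw [Scheme.Opens.range_ι]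
    rintro _ ⟨w, rfl⟩
    exact hsub ⟨w, rfl⟩
  have hfac : IsOpenImmersion.lift (U V).ι (j' ≫ s.1) hr ≫ (U V).ι = j' ≫ s.1 :=
    IsOpenImmersion.lift_fac _ _ _
  -- the two pullbacks to `Spec R'` are models along the same morphism
  have hL' : IsModelAlong 𝒢 (j' ≫ s.1 ≫ f) (L.pullbackAlong ⟨j', hj'⟩) :=
    hLmod.of_isPB (isPB_pullbackAlong L ⟨j', hj'⟩)
  have hpb1 : IsPB M₀ (U V).ι (M V) := (isPB_restrictOpen M₀ (U V)).of_rIso_right (hM₀ V)
  have hpb2 : IsPB M₀ (j' ≫ s.1) ((M₀.pullbackAlong s).pullbackAlong ⟨j', hj'⟩) :=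
    (isPB_pullbackAlong M₀ s).comp (isPB_pullbackAlong _ ⟨j', hj'⟩)
  have hpb3 : IsPB (M V) (IsOpenImmersion.lift (U V).ι (j' ≫ s.1) hr)
      ((M₀.pullbackAlong s).pullbackAlong ⟨j', hj'⟩) :=
    hpb1.of_comp (hpb2.of_eq hfac.symm)
  have hM' : IsModelAlong 𝒢 (j' ≫ s.1 ≫ f) ((M₀.pullbackAlong s).pullbackAlong ⟨j', hj'⟩) :=
    ((hM V).of_isPB hpb3).of_eq (by rw [← Category.assoc, hfac, Category.assoc])
  have hw : (j' ≫ s.1 ≫ f) ≫ t = specStr k R' := by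
    rw [Category.assoc, h, hj']
  have h3 := rIso_restrict_range (M₀.pullbackAlong s) L
    (⟨j', hj'⟩ : SchemeHomOver (specStr k R') (specStr k R)) (hM'.rIso hD h𝒢 hw hL')
  exact TopologicalSpace.Opens.mem_iSup.2 ⟨⟨j'.opensRange, h3⟩, hz⟩

end Along

/-! ## The four leaves -/

variable (Ch)

/-- **RECIPE-UNIQUE**. -/
theorem recipeUnique (hD : Dict Ch) : Stmt.RecipeUnique Ch := by
  intro T t 𝒢 h𝒢 N N' hN hN'
  exact (isModel_iff_along.1 hN).rIso hD h𝒢 (Category.id_comp t) (isModel_iff_along.1 hN')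

/-- **RECIPE-EXISTS**. -/
theorem recipeExists (hD : Dict Ch) : Stmt.RecipeExists Ch := by
  intro T t 𝒢 h𝒢
  obtain ⟨N, hN⟩ := exists_isModelAlong hD h𝒢 (𝟙 T) (Category.id_comp t)
  exact ⟨N, isModel_iff_along.2 hN⟩

/-- **RECIPE-CORR**. -/
theorem recipeCorr (hD : Dict Ch) : Stmt.RecipeCorr Ch := by
  intro T t 𝒢 h𝒢 N hN A _ _ s G hG
  obtain ⟨G₀, hG₀, -⟩ := hD.sec A (N.pullbackAlong s)
  obtain ⟨G₁, hG₁, hrig⟩ := h𝒢.exists_rig A s
  obtain ⟨L, hL⟩ := hD.glue A G₁ hrig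
  have h1 : RIso (N.pullbackAlong s) L := hN A s G₁ L hG₁ hL
  have h2 : G₀.IsIso G₁ := (hD.iso A (N.pullbackAlong s) L G₀ G₁ hG₀ hL).1 h1
  have h3 : G₁.IsIso G := h𝒢.unique A s G₁ G hG₁ hG
  exact corr_of_gdIso hG₀ (gdIso_trans h2 h3)

/-- **RECIPE-DEG**. -/
theorem recipeDeg (hD : Dict Ch) : Stmt.RecipeDeg Ch := by
  intro T t 𝒢 h𝒢 hdeg N hN
  let ι : Type u := {V : T.Opens // FibrewiseAlgEquivZero (restrictOpen N V)}
  refine hD.localP t (ι := ι) (fun V => V.1) ?_ N (fun V => V.2)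
  rw [eq_top_iff]
  intro ξ _
  obtain ⟨A, _, _, j, _, hj, hξ, -⟩ := exists_affineNhd t ⊤ ξ trivial
  obtain ⟨G, hG, -⟩ := h𝒢.exists_rig A ⟨j, hj⟩
  have hc : Corr Ch A (N.pullbackAlong ⟨j, hj⟩).L G :=
    recipeCorr Ch hD t 𝒢 h𝒢 N hN A ⟨j, hj⟩ G hG
  have h0 : FibrewiseAlgEquivZero (N.pullbackAlong (⟨j, hj⟩ : SchemeHomOver (specStr k A) t)) :=
    (hD.deg A _ G hc).2 (hdeg A ⟨j, hj⟩ G hG)
  have hr : Set.range (j.opensRange.ι) ⊆ Set.range j := by
    rw [Scheme.Opens.range_ι]; exact subset_rfl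
  have hfac : IsOpenImmersion.lift j (j.opensRange.ι) hr ≫ j = j.opensRange.ι :=
    IsOpenImmersion.lift_fac _ _ _
  have h1 : IsPB (N.pullbackAlong (⟨j, hj⟩ : SchemeHomOver (specStr k A) t))
      (IsOpenImmersion.lift j (j.opensRange.ι) hr) (restrictOpen N j.opensRange) :=
    (isPB_pullbackAlong N ⟨j, hj⟩).of_comp ((isPB_restrictOpen N _).of_eq hfac.symm)
  exact TopologicalSpace.Opens.mem_iSup.2 ⟨⟨j.opensRange, h1.deg0 h0⟩, hξ⟩

end

end Fermat.Agent.S27.H541
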